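/-
GATE-E (S59) / block E8.3c = CASE B at `p = 3` (helper24), the BINDER CHAIN, file 0.

`Ok3 p N` : the relaxed form of the hypothesis `p ≠ 3` of GATE-B's Taylor–Wiles tower
(`GB/B3/StepInst … Plug.Hyp.hp3 … B9/B10`):

  `Ok3 p N := p ≠ 3 ∨ ∃ r, r.Prime ∧ r % 3 = 2 ∧ r ∣ N`      (`N` = the level of `Γ₀(N)`).

`Ok3.step` turns it into the binder `h3` of `GE8/CaseB3/CycPlug3.cycStepKKSL3` for the ambient
group `Γ₀(N)` (`UFree.no_conj_U_mem`).  The directory `Fermat/Agent/GE8/P3/GB/…` holds the twins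
of the GATE-B files above `GB/B3/StepInst` with `(hp3 : p ≠ 3)` replaced by `(hp3 : Ok3 p N)`;
every twin lives in the wrapper namespace `Fermat.Agent.GE8.P3` (so the twin of
`Fermat.Agent.GB.B3.Plug.bigLevel` is `Fermat.Agent.GE8.P3.Fermat.Agent.GB.B3.Plug.bigLevel`).
-/
import Mathlib
import Fermat.Agent.GE8.CaseB3.CycPlug3
import Fermat.Agent.GE8.CaseB3.UFree

set_option autoImplicit false

open scoped MatrixGroups

namespace Fermat.Agent.GE8.P3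

/-- **the relaxed form of `p ≠ 3`** at the level `N`: either `p ≠ 3`, or a prime `r ≡ 2 (mod 3)`
divides the level (then `Γ₀(N)` has no elliptic element of order `3`). -/
def Ok3 (p N : ℕ) : Prop := p ≠ 3 ∨ ∃ r : ℕ, r.Prime ∧ r % 3 = 2 ∧ r ∣ N

namespace Ok3

theorem of_ne {p N : ℕ} (h : p ≠ 3) : Ok3 p N := Or.inl h

theorem of_five_le {p N : ℕ} (h : 5 ≤ p) : Ok3 p N := Or.inl (by omega)

theorem of_prime {p N r : ℕ} (hr : r.Prime) (hr3 : r % 3 = 2) (hrN : r ∣ N) : Ok3 p N :=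
  Or.inr ⟨r, hr, hr3, hrN⟩

/-- `Ok3` passes to multiples of the level -/
theorem mono {p N N' : ℕ} (hNN' : N ∣ N') (h : Ok3 p N) : Ok3 p N' :=
  h.imp id fun ⟨r, hr, hr3, hrN⟩ => ⟨r, hr, hr3, hrN.trans hNN'⟩

theorem mul_right {p N : ℕ} (q : ℕ) (h : Ok3 p N) : Ok3 p (N * q) := h.mono (Dvd.intro q rfl)

theorem mul_left {p N : ℕ} (q : ℕ) (h : Ok3 p N) : Ok3 p (q * N) := h.mono (Dvd.intro_left q rfl)

/-- `Ok3` descends from `N * q` to `N` when the prime `q` is not `≡ 2 (mod 3)` (e.g. `q ≡ 1 (mod p)`,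
`p = 3`) -/
theorem of_mul_prime {p N q : ℕ} (hq : q.Prime) (hq3 : p = 3 → q % 3 ≠ 2) (h : Ok3 p (N * q)) :
    Ok3 p N := by
  rcases h with h | ⟨r, hr, hr3, hrN⟩
  · exact Or.inl h
  · by_cases hp : p = 3
    · rcases (Nat.Prime.dvd_mul hr).1 hrN with h1 | h1
      · exact Or.inr ⟨r, hr, hr3, h1⟩
      · have : r = q := (Nat.prime_dvd_prime_iff_eq hr hq).1 h1
        exact absurd (this ▸ hr3) (hq3 hp)
    · exact Or.inl hp

/-- **the binder `h3` of `CycPlug3.cycStepKKSL3`** for the ambient group `Γ₀(N)` -/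
theorem step {p N : ℕ} (hp : p.Prime) (h : Ok3 p N) (n : ℕ) :
    ¬ 3 ∣ p ^ n ∨ ∀ g : SL(2, ℤ),
      g⁻¹ * (ModularGroup.S * ModularGroup.T) * g ∉ CongruenceSubgroup.Gamma0 N := by
  rcases h with h | ⟨r, hr, hr3, hrN⟩
  · refine Or.inl fun h3 => h ?_
    exact (Nat.prime_dvd_prime_iff_eq Nat.prime_three hp).1 (Nat.prime_three.dvd_of_dvd_pow h3) |>.symm
  · exact Or.inr (Fermat.Agent.GE8.CaseB3.UFree.no_conj_U_mem hr hrN hr3 le_rfl)

end Ok3

end Fermat.Agent.GE8.P3
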